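import Mathlib
import Fermat.Agent.S18.Core.NumberField
import Fermat.Agent.S18.Core.Descend
import Fermat.Agent.SS.Geo.NewtonInt
import Fermat.Agent.ST.Core

/-!
# Program Q (S36), package CORE, leaf APPLY (prefix `sqca_`) : the last step

`F ⊂ L₀((𝐪))` a function field (`L₀ = Frac A₀`, `A₀` a DVR), `t ∈ F` a chart coordinate WITH A POLE AT
`𝐪 = 0`.  If `h ≡ 1 mod ϖ P_(ϖ)` has the local datum `StDivAt` at every closed point of the special
fibre (both charts), then `h = a · y₀ⁿ` with `a ∈ A₀ˣ`, `y₀ ∈ F`.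

`st_core` needs `L₀` to be algebraically closed in `F(y)`, `yⁿ = h`; this FAILS for a constant
`h = u ∈ 1 + ϖ A₀` which is not an `n`-th power in `L₀` (`A₀` is not Henselian).  Cure: the closed
point `𝔫_∞` under the cusp (`sqcaInf`: the elements of `P' = s18tInt A₀ t⁻¹` whose constant term lies
in `ϖ A₀`; constant terms of elements of `P'` are in `A₀` because the composite valuation ring
`sqcaW = {x ∈ L₀[[𝐪]] ∩ F : x(0) ∈ A₀}` contains `A₀[t⁻¹]`).  (KUM) at `𝔫_∞` gives `r ≡ 1` with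
`h / rⁿ = 1 + ϖ p / s`, `s(0) ∈ A₀ˣ` : a power series with constant term `a ∈ 1 + ϖ A₀`.  Then
`h / a = (power series with constant term 1) · rⁿ` has an `n`-th root in `L₀((𝐪))`, and `st_core`
applies to `h / a` with `F' = F(y) ⊂ L₀((𝐪))`.
-/

set_option autoImplicit false
set_option linter.unusedSectionVars false
set_option linter.unusedVariables false
set_option synthInstance.maxHeartbeats 400000
set_option linter.style.haveILetI false

noncomputable section

namespace Fermat.Agent.SQ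

open ModularCurve AlgebraicCurve IntermediateField Polynomial Fermat.Agent.S18 Fermat.Agent.SS
  Fermat.Agent.ST

universe u

/-! ### power series inside Laurent series -/

section Series

variable {K : Type*} [Field K]

/-- a Laurent series of non-negative order is a power series -/
theorem sqca_exists_ps (x : LaurentSeries K) (hx : 0 ≤ x.order) :
    ∃ p : PowerSeries K, (HahnSeries.ofPowerSeries ℤ K p) = x := by
  obtain ⟨k, hk⟩ := Int.eq_ofNat_of_zero_le hx
  refine ⟨PowerSeries.X ^ k * x.powerSeriesPart, ?_⟩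
  rw [map_mul, HahnSeries.ofPowerSeries_X_pow]
  have := LaurentSeries.single_order_mul_powerSeriesPart x
  rw [hk] at this
  exact this

/-- the constant coefficient of a power series, read in the Laurent series -/
theorem sqca_coeff_zero (p : PowerSeries K) :
    (HahnSeries.ofPowerSeries ℤ K p).coeff 0 = PowerSeries.constantCoeff p := by
  rw [PowerSeries.coeff_coe]
  simp

end Series

section Apply

variable {A₀ : Type*} [CommRing A₀] [IsDomain A₀] [IsDiscreteValuationRing A₀] [CharZero A₀]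
variable {L₀ : Type u} [Field L₀] [Algebra A₀ L₀] [IsFractionRing A₀ L₀]
variable {ϖ : A₀}

/-- `x ∈ F` is a power series whose constant term lies in `A₀`. -/
def SqcaInt (A₀ : Type*) [CommRing A₀] {L₀ : Type u} [Field L₀] [Algebra A₀ L₀]
    (F : IntermediateField L₀ (LaurentSeries L₀)) (x : F) : Prop :=
  ∃ p : PowerSeries L₀, HahnSeries.ofPowerSeries ℤ L₀ p = (x : LaurentSeries L₀) ∧
    ∃ a : A₀, algebraMap A₀ L₀ a = PowerSeries.constantCoeff p

variable (F : IntermediateField L₀ (LaurentSeries L₀))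

theorem sqca_int_mul {x y : F} (hx : SqcaInt A₀ F x) (hy : SqcaInt A₀ F y) :
    SqcaInt A₀ F (x * y) := by
  obtain ⟨p, hp, a, ha⟩ := hx
  obtain ⟨p', hp', a', ha'⟩ := hy
  refine ⟨p * p', ?_, a * a', ?_⟩
  · rw [map_mul, hp, hp']; rfl
  · rw [map_mul, map_mul, ha, ha']

theorem sqca_int_add {x y : F} (hx : SqcaInt A₀ F x) (hy : SqcaInt A₀ F y) :
    SqcaInt A₀ F (x + y) := by
  obtain ⟨p, hp, a, ha⟩ := hx
  obtain ⟨p', hp', a', ha'⟩ := hy
  refine ⟨p + p', ?_, a + a', ?_⟩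
  · rw [map_add, hp, hp']; rfl
  · rw [map_add, map_add, ha, ha']

theorem sqca_int_neg {x : F} (hx : SqcaInt A₀ F x) : SqcaInt A₀ F (-x) := by
  obtain ⟨p, hp, a, ha⟩ := hx
  refine ⟨-p, ?_, -a, ?_⟩
  · rw [map_neg, hp]; rfl
  · rw [map_neg, map_neg, ha]

theorem sqca_int_algebraMap (a : A₀) : SqcaInt A₀ F (algebraMap A₀ F a) := by
  refine ⟨PowerSeries.C (algebraMap A₀ L₀ a), ?_, a, ?_⟩
  · rw [PowerSeries.coe_C, s18v_coe_algebraMap, HahnSeries.algebraMap_apply']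
    simp
  · rw [PowerSeries.constantCoeff_C]

theorem sqca_int_of_order_pos {x : F} (hx : 0 < ((x : F) : LaurentSeries L₀).order) :
    SqcaInt A₀ F x := by
  obtain ⟨p, hp⟩ := sqca_exists_ps (x : LaurentSeries L₀) hx.le
  refine ⟨p, hp, 0, ?_⟩
  rw [map_zero, ← sqca_coeff_zero, hp]
  exact (HahnSeries.coeff_eq_zero_of_lt_order hx).symm

/-- THE COMPOSITE VALUATION RING `{x ∈ L₀[[𝐪]] ∩ F : x(0) ∈ A₀}`. -/
def sqcaW : ValuationSubring F where
  carrier := {x | SqcaInt A₀ F x}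
  mul_mem' := fun hx hy => sqca_int_mul F hx hy
  one_mem' := by
    have := sqca_int_algebraMap (A₀ := A₀) F 1
    rwa [map_one] at this
  add_mem' := fun hx hy => sqca_int_add F hx hy
  zero_mem' := by
    have := sqca_int_algebraMap (A₀ := A₀) F 0
    rwa [map_zero] at this
  neg_mem' := fun hx => sqca_int_neg F hx
  mem_or_inv_mem' := by
    intro x
    by_cases hx0 : x = 0
    · left
      rw [hx0]
      have := sqca_int_algebraMap (A₀ := A₀) F 0
      rwa [map_zero] at this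
    have hX0 : ((x : F) : LaurentSeries L₀) ≠ 0 := fun h => hx0 (Subtype.ext h)
    have hXi0 : ((x⁻¹ : F) : LaurentSeries L₀) ≠ 0 :=
      fun h => inv_ne_zero hx0 (Subtype.ext h)
    have hordinv : ((x⁻¹ : F) : LaurentSeries L₀).order = -((x : F) : LaurentSeries L₀).order := by
      have h1 : ((x : F) : LaurentSeries L₀) * ((x⁻¹ : F) : LaurentSeries L₀) = 1 := by
        have : x * x⁻¹ = 1 := mul_inv_cancel₀ hx0
        exact_mod_cast congrArg (fun z : F => (z : LaurentSeries L₀)) this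
      have h2 := HahnSeries.order_mul hX0 hXi0
      rw [h1, HahnSeries.order_one] at h2
      linarith
    rcases lt_trichotomy ((x : F) : LaurentSeries L₀).order 0 with hlt | heq | hgt
    · right
      exact sqca_int_of_order_pos F (by rw [hordinv]; linarith)
    · obtain ⟨p, hp⟩ := sqca_exists_ps ((x : F) : LaurentSeries L₀) heq.ge
      have hc : PowerSeries.constantCoeff p ≠ 0 := by
        rw [← sqca_coeff_zero, hp, ← heq]
        exact mt HahnSeries.coeff_order_eq_zero.mp hX0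
      rcases ValuationRing.isInteger_or_isInteger A₀ (PowerSeries.constantCoeff p) with
        ⟨a, ha⟩ | ⟨a, ha⟩
      · left
        exact ⟨p, hp, a, ha⟩
      · right
        refine ⟨p⁻¹, ?_, a, ?_⟩
        · have h1 : HahnSeries.ofPowerSeries ℤ L₀ p * HahnSeries.ofPowerSeries ℤ L₀ p⁻¹ = 1 := by
            rw [← map_mul, PowerSeries.mul_inv_cancel p hc, map_one]
          have h2 : ((x : F) : LaurentSeries L₀) * ((x⁻¹ : F) : LaurentSeries L₀) = 1 := by
            have : x * x⁻¹ = 1 := mul_inv_cancel₀ hx0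
            exact_mod_cast congrArg (fun z : F => (z : LaurentSeries L₀)) this
          rw [hp] at h1
          exact mul_left_cancel₀ hX0 (h1.trans h2.symm)
        · rw [ha, PowerSeries.constantCoeff_inv]
    · left
      exact sqca_int_of_order_pos F hgt

theorem mem_sqcaW {x : F} : x ∈ sqcaW (A₀ := A₀) F ↔ SqcaInt A₀ F x := Iff.rfl

variable {F}

/-- the chart ring at infinity consists of power series with constant term in `A₀`. -/
theorem sqca_int_of_mem (t : F) (hpole : ((t : F) : LaurentSeries L₀).order < 0) {x : F}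
    (hx : x ∈ s18tInt A₀ t⁻¹) : SqcaInt A₀ F x := by
  have ht0 : t ≠ 0 := by
    rintro rfl
    simp at hpole
  have hX0 : ((t : F) : LaurentSeries L₀) ≠ 0 := fun h => ht0 (Subtype.ext h)
  have hXi0 : ((t⁻¹ : F) : LaurentSeries L₀) ≠ 0 := fun h => inv_ne_zero ht0 (Subtype.ext h)
  have hordinv : ((t⁻¹ : F) : LaurentSeries L₀).order = -((t : F) : LaurentSeries L₀).order := by
    have h1 : ((t : F) : LaurentSeries L₀) * ((t⁻¹ : F) : LaurentSeries L₀) = 1 := by
      have : t * t⁻¹ = 1 := mul_inv_cancel₀ ht0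
      exact_mod_cast congrArg (fun z : F => (z : LaurentSeries L₀)) this
    have h2 := HahnSeries.order_mul hX0 hXi0
    rw [h1, HahnSeries.order_one] at h2
    linarith
  exact ssgn_int_le (A := A₀) t⁻¹ (sqcaW (A₀ := A₀) F) (fun a => sqca_int_algebraMap F a)
    (sqca_int_of_order_pos F (by rw [hordinv]; linarith)) hx

/-! ### the closed point under the cusp -/

/-- THE CLOSED POINT `𝔫_∞` of the chart `t⁻¹` under the cusp `𝐪 = 0` : the elements of
`P' = s18tInt A₀ t⁻¹` whose constant term lies in `ϖ A₀`. -/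
def sqcaInf (ϖ : A₀) (t : F) (hpole : ((t : F) : LaurentSeries L₀).order < 0) :
    Ideal ↥(s18tInt A₀ t⁻¹) where
  carrier := {x | ∃ p : PowerSeries L₀,
    HahnSeries.ofPowerSeries ℤ L₀ p = (((x : ↥(s18tInt A₀ t⁻¹)) : F) : LaurentSeries L₀) ∧
      ∃ a : A₀, algebraMap A₀ L₀ (ϖ * a) = PowerSeries.constantCoeff p}
  add_mem' := by
    rintro x y ⟨p, hp, a, ha⟩ ⟨p', hp', a', ha'⟩
    refine ⟨p + p', ?_, a + a', ?_⟩
    · rw [map_add, hp, hp']; rfl
    · rw [map_add PowerSeries.constantCoeff p p', ← ha, ← ha', ← map_add, mul_add]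
  zero_mem' := ⟨0, by rw [map_zero]; rfl, 0, by rw [mul_zero, map_zero, map_zero]⟩
  smul_mem' := by
    rintro c x ⟨p, hp, a, ha⟩
    obtain ⟨p', hp', a', ha'⟩ := sqca_int_of_mem t hpole c.2
    refine ⟨p' * p, ?_, a' * a, ?_⟩
    · rw [map_mul, hp, hp']; rfl
    · rw [map_mul PowerSeries.constantCoeff p' p, ← ha, ← ha', ← map_mul]
      congr 1
      ring

theorem sqca_pi_mem_inf (t : F) (hpole : ((t : F) : LaurentSeries L₀).order < 0) :
    sskPi ϖ t⁻¹ ∈ sqcaInf ϖ t hpole := by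
  obtain ⟨p, hp, a, ha⟩ := sqca_int_algebraMap (A₀ := A₀) F ϖ
  refine ⟨PowerSeries.C (algebraMap A₀ L₀ ϖ), ?_, 1, ?_⟩
  · rw [PowerSeries.coe_C]
    show _ = ((algebraMap A₀ F ϖ : F) : LaurentSeries L₀)
    rw [s18v_coe_algebraMap, HahnSeries.algebraMap_apply']
    simp
  · rw [PowerSeries.constantCoeff_C, mul_one]

theorem sqca_tinv_mem_inf (t : F) (hpole : ((t : F) : LaurentSeries L₀).order < 0) :
    ssglTinv (A := A₀) t ∈ sqcaInf ϖ t hpole := by
  have ht0 : t ≠ 0 := by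
    rintro rfl
    simp at hpole
  have hX0 : ((t : F) : LaurentSeries L₀) ≠ 0 := fun h => ht0 (Subtype.ext h)
  have hXi0 : ((t⁻¹ : F) : LaurentSeries L₀) ≠ 0 := fun h => inv_ne_zero ht0 (Subtype.ext h)
  have hordinv : ((t⁻¹ : F) : LaurentSeries L₀).order = -((t : F) : LaurentSeries L₀).order := by
    have h1 : ((t : F) : LaurentSeries L₀) * ((t⁻¹ : F) : LaurentSeries L₀) = 1 := by
      have : t * t⁻¹ = 1 := mul_inv_cancel₀ ht0
      exact_mod_cast congrArg (fun z : F => (z : LaurentSeries L₀)) this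
    have h2 := HahnSeries.order_mul hX0 hXi0
    rw [h1, HahnSeries.order_one] at h2
    linarith
  have hpos : 0 < ((t⁻¹ : F) : LaurentSeries L₀).order := by rw [hordinv]; linarith
  obtain ⟨p, hp⟩ := sqca_exists_ps ((t⁻¹ : F) : LaurentSeries L₀) hpos.le
  refine ⟨p, hp, 0, ?_⟩
  rw [mul_zero, map_zero, ← sqca_coeff_zero, hp]
  exact (HahnSeries.coeff_eq_zero_of_lt_order hpos).symm

/-- an element of `P'` outside `𝔫_∞` has a unit constant term -/
theorem sqca_unit_of_not_mem (hϖ : Irreducible ϖ) (t : F)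
    (hpole : ((t : F) : LaurentSeries L₀).order < 0) {s : ↥(s18tInt A₀ t⁻¹)}
    (hs : s ∉ sqcaInf ϖ t hpole) :
    ∃ (p : PowerSeries L₀) (a : A₀),
      HahnSeries.ofPowerSeries ℤ L₀ p = (((s : ↥(s18tInt A₀ t⁻¹)) : F) : LaurentSeries L₀) ∧
        algebraMap A₀ L₀ a = PowerSeries.constantCoeff p ∧ IsUnit a := by
  obtain ⟨p, hp, a, ha⟩ := sqca_int_of_mem t hpole s.2
  refine ⟨p, a, hp, ha, ?_⟩
  by_contra hnu
  have hmem : a ∈ IsLocalRing.maximalIdeal A₀ := hnu
  rw [hϖ.maximalIdeal_eq, Ideal.mem_span_singleton] at hmem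
  obtain ⟨b, rfl⟩ := hmem
  exact hs ⟨p, hp, b, ha⟩

theorem sqca_inf_isMaximal (hϖ : Irreducible ϖ) (t : F)
    (hpole : ((t : F) : LaurentSeries L₀).order < 0) : (sqcaInf ϖ t hpole).IsMaximal := by
  have hinj : Function.Injective (algebraMap A₀ L₀) := IsFractionRing.injective A₀ L₀
  rw [Ideal.isMaximal_iff]
  constructor
  · rintro ⟨p, hp, a, ha⟩
    have h1 : HahnSeries.ofPowerSeries ℤ L₀ p = HahnSeries.ofPowerSeries ℤ L₀ 1 := by
      rw [hp, map_one]; rfl
    have h2 : p = 1 := HahnSeries.ofPowerSeries_injective h1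
    rw [h2, map_one] at ha
    have h3 : ϖ * a = 1 := hinj (by rw [ha, map_one])
    exact hϖ.not_isUnit (IsUnit.of_mul_eq_one a h3)
  · intro J x hJ hx hxJ
    obtain ⟨p, a, hp, ha, hau⟩ := sqca_unit_of_not_mem hϖ t hpole hx
    obtain ⟨b, hb⟩ := hau.exists_right_inv
    -- `z = x * b - 1 ∈ 𝔫_∞`
    set bb : ↥(s18tInt A₀ t⁻¹) := ⟨algebraMap A₀ F b, s18tc_algebraMap_mem_int t⁻¹ b⟩ with hbb
    have hz : x * bb - 1 ∈ sqcaInf ϖ t hpole := by
      refine ⟨p * PowerSeries.C (algebraMap A₀ L₀ b) - 1, ?_, 0, ?_⟩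
      · rw [map_sub, map_mul, hp, map_one, PowerSeries.coe_C]
        show _ = (((x : ↥(s18tInt A₀ t⁻¹)) : F) : LaurentSeries L₀) *
          ((algebraMap A₀ F b : F) : LaurentSeries L₀) - 1
        rw [s18v_coe_algebraMap, HahnSeries.algebraMap_apply']
        simp
      · rw [mul_zero, map_zero, map_sub, map_mul, PowerSeries.constantCoeff_C, map_one, ← ha,
          ← map_mul, hb, map_one, sub_self]
    have h1 : (1 : ↥(s18tInt A₀ t⁻¹)) = x * bb - (x * bb - 1) := by ring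
    rw [h1]
    exact J.sub_mem (J.mul_mem_right _ hxJ) (hJ hz)

/-! ### the last step -/

/-- `StDivAt` is insensitive to constants -/
theorem sqca_divAt_mul_const (hϖ : Irreducible ϖ) (t : F) (n : ℕ) (h : F) (c : A₀) (hc : c ≠ 0)
    (hh : h ≠ 0) (𝔫 : Ideal ↥(s18tInt A₀ t)) (hd : StDivAt L₀ hϖ t n h 𝔫) :
    StDivAt L₀ hϖ t n (h * algebraMap A₀ F c) 𝔫 := by
  obtain ⟨r, hr0, hr1, hr2, hord⟩ := hd
  refine ⟨r, hr0, hr1, hr2, fun R hR => ?_⟩
  have hcL : algebraMap A₀ L₀ c ≠ 0 := by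
    rw [Ne, map_eq_zero_iff _ (IsFractionRing.injective A₀ L₀)]
    exact hc
  have hcF : algebraMap A₀ F c ≠ 0 := by
    rw [IsScalarTower.algebraMap_apply A₀ L₀ F, Ne, map_eq_zero]
    exact hcL
  rw [R.ord_mul hh hcF, hord R hR, IsScalarTower.algebraMap_apply A₀ L₀ F,
    Fermat.Agent.S24.PlaceOrd.ord_algebraMap, add_zero]

/-- **THE LAST STEP OF PROGRAM Q** : `h ≡ 1 mod ϖ P_(ϖ)` with the local datum `StDivAt` at every
closed point of the special fibre is a unit constant times an `n`-th power. -/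
theorem sqca_apply (hϖ : Irreducible ϖ) (F : IntermediateField L₀ (LaurentSeries L₀)) (t : F)
    (ht : Transcendental L₀ t) [FiniteDimensional L₀⟮t⟯ F]
    (hpole : ((t : F) : LaurentSeries L₀).order < 0)
    (n : ℕ) (hn : IsUnit (n : A₀)) (ζ : A₀) (hζ : IsPrimitiveRoot ζ n)
    (h : F) (hh : h ≠ 0) (hh1 : S18DvdGauss hϖ t (h - 1))
    (h0 : ∀ 𝔫 : Ideal ↥(s18tInt A₀ t), 𝔫.IsMaximal → sskPi ϖ t ∈ 𝔫 → StDivAt L₀ hϖ t n h 𝔫)
    (hinf : ∀ 𝔫 : Ideal ↥(s18tInt A₀ t⁻¹), 𝔫.IsMaximal → sskPi ϖ t⁻¹ ∈ 𝔫 →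
      ssglTinv (A := A₀) t ∈ 𝔫 → StDivAt L₀ hϖ t⁻¹ n h 𝔫) :
    ∃ (a : A₀) (y₀ : F), IsUnit a ∧ h = algebraMap A₀ F a * y₀ ^ n := by
  have hinj : Function.Injective (algebraMap A₀ L₀) := IsFractionRing.injective A₀ L₀
  have hn0 : n ≠ 0 := by
    rintro rfl
    rw [Nat.cast_zero] at hn
    exact not_isUnit_zero hn
  have hnL : ((n : ℕ) : L₀) ≠ 0 := by
    have h1 : IsUnit (algebraMap A₀ L₀ (n : A₀)) := hn.map _
    rw [map_natCast] at h1
    exact h1.ne_zero
  have ht' : Transcendental L₀ t⁻¹ := by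
    intro h
    exact ht (by simpa using h.inv)
  haveI hfd : FiniteDimensional L₀⟮t⁻¹⟯ F := by
    have hEq : L₀⟮t⁻¹⟯ = L₀⟮t⟯ := by
      apply le_antisymm
      · rw [IntermediateField.adjoin_simple_le_iff]
        exact inv_mem (IntermediateField.mem_adjoin_simple_self L₀ t)
      · rw [IntermediateField.adjoin_simple_le_iff]
        have := inv_mem (IntermediateField.mem_adjoin_simple_self L₀ t⁻¹)
        simpa using this
    rw [hEq]; infer_instance
  have hh1' : S18DvdGauss hϖ t⁻¹ (h - 1) := (s18t_dvdGauss_inv (L := L₀) hϖ t ht _).mpr hh1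
  -- (KUM) at the closed point under the cusp
  have h𝔫 := sqca_inf_isMaximal hϖ t hpole
  obtain ⟨r, hr0, hr1, hr2, s, hs, p, hp, hsp⟩ :=
    stk_kumAt hϖ t⁻¹ ht' n h hh hh1' (sqcaInf ϖ t hpole) h𝔫
      (hinf _ h𝔫 (sqca_pi_mem_inf t hpole) (sqca_tinv_mem_inf t hpole))
  obtain ⟨σ, as, hσ, has, hasu⟩ := sqca_unit_of_not_mem hϖ t hpole hs
  obtain ⟨π, hπ, ap, hap⟩ := sqca_int_of_mem t hpole hp
  obtain ⟨b, hb⟩ := hasu.exists_right_inv
  have hσ0 : PowerSeries.constantCoeff σ ≠ 0 := by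
    rw [← has, Ne, map_eq_zero_iff _ hinj]
    exact hasu.ne_zero
  -- the unit constant
  obtain ⟨a, ha⟩ : ∃ a : A₀, a = 1 + ϖ * (ap * b) := ⟨_, rfl⟩
  have hau : IsUnit a := by
    by_contra hnu
    have h1 : a ∈ IsLocalRing.maximalIdeal A₀ := hnu
    have h2 : ϖ * (ap * b) ∈ IsLocalRing.maximalIdeal A₀ := by
      rw [hϖ.maximalIdeal_eq]
      exact Ideal.mul_mem_right _ _ (Ideal.mem_span_singleton_self ϖ)
    have h3 : (1 : A₀) ∈ IsLocalRing.maximalIdeal A₀ := by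
      have := Ideal.sub_mem _ h1 h2
      rwa [ha, add_sub_cancel_right] at this
    exact (Ideal.ne_top_iff_one _).mp (IsLocalRing.maximalIdeal.isMaximal A₀).ne_top h3
  obtain ⟨c, hc⟩ := hau.exists_right_inv
  have hca : c * a = 1 := by rw [mul_comm]; exact hc
  have hc0 : c ≠ 0 := by
    rintro rfl
    rw [mul_zero] at hc
    exact zero_ne_one hc
  -- the power series `ω = h / rⁿ`
  obtain ⟨ω, hωdef⟩ : ∃ ω : PowerSeries L₀,
      ω = 1 + PowerSeries.C (algebraMap A₀ L₀ ϖ) * π * σ⁻¹ := ⟨_, rfl⟩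
  have hωc : PowerSeries.constantCoeff ω = algebraMap A₀ L₀ a := by
    have h1 : algebraMap A₀ L₀ as * algebraMap A₀ L₀ b = 1 := by rw [← map_mul, hb, map_one]
    have h2 : (algebraMap A₀ L₀ as)⁻¹ = algebraMap A₀ L₀ b :=
      (eq_inv_of_mul_eq_one_right h1).symm
    rw [hωdef, map_add, map_one, map_mul, map_mul, PowerSeries.constantCoeff_C,
      PowerSeries.constantCoeff_inv, ← hap, ← has, h2, ha, map_add, map_one, map_mul, map_mul]
    ring
  have hσσ : HahnSeries.ofPowerSeries ℤ L₀ σ * HahnSeries.ofPowerSeries ℤ L₀ σ⁻¹ = 1 := by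
    rw [← map_mul, PowerSeries.mul_inv_cancel σ hσ0, map_one]
  have hσL0 : HahnSeries.ofPowerSeries ℤ L₀ σ ≠ 0 := left_ne_zero_of_mul_eq_one hσσ
  have hω : HahnSeries.ofPowerSeries ℤ L₀ ω = ((h / r ^ n : F) : LaurentSeries L₀) := by
    have h1 : (((s : ↥(s18tInt A₀ t⁻¹)) : F) : LaurentSeries L₀) *
        (((h / r ^ n : F) : LaurentSeries L₀) - 1) =
          ((algebraMap A₀ F ϖ : F) : LaurentSeries L₀) * ((p : F) : LaurentSeries L₀) := by
      exact_mod_cast congrArg (fun z : F => (z : LaurentSeries L₀)) hsp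
    rw [← hσ, ← hπ, s18v_coe_algebraMap] at h1
    have h2 : algebraMap L₀ (LaurentSeries L₀) (algebraMap A₀ L₀ ϖ) =
        HahnSeries.ofPowerSeries ℤ L₀ (PowerSeries.C (algebraMap A₀ L₀ ϖ)) := by
      rw [PowerSeries.coe_C, HahnSeries.algebraMap_apply']
      simp
    rw [h2] at h1
    apply mul_left_cancel₀ hσL0
    rw [hωdef, map_add, map_one, map_mul, map_mul, mul_add, mul_one]
    have h3 : HahnSeries.ofPowerSeries ℤ L₀ σ * ((h / r ^ n : F) : LaurentSeries L₀) =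
        HahnSeries.ofPowerSeries ℤ L₀ σ + HahnSeries.ofPowerSeries ℤ L₀ σ *
          (((h / r ^ n : F) : LaurentSeries L₀) - 1) := by ring
    rw [h3, h1]
    congr 1
    calc HahnSeries.ofPowerSeries ℤ L₀ σ *
          (HahnSeries.ofPowerSeries ℤ L₀ (PowerSeries.C (algebraMap A₀ L₀ ϖ)) *
            HahnSeries.ofPowerSeries ℤ L₀ π * HahnSeries.ofPowerSeries ℤ L₀ σ⁻¹)
        = (HahnSeries.ofPowerSeries ℤ L₀ σ * HahnSeries.ofPowerSeries ℤ L₀ σ⁻¹) *
          (HahnSeries.ofPowerSeries ℤ L₀ (PowerSeries.C (algebraMap A₀ L₀ ϖ)) *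
            HahnSeries.ofPowerSeries ℤ L₀ π) := by ring
      _ = _ := by rw [hσσ, one_mul]
  -- the `n`-th root of `ω / a`
  obtain ⟨y₁, hy₁⟩ := s18dd_exists_root_powerSeries n hn0 hnL
    (PowerSeries.C (algebraMap A₀ L₀ c) * ω) 1 one_ne_zero (by
      rw [one_pow, map_mul, PowerSeries.constantCoeff_C, hωc, ← map_mul, hca, map_one])
  -- the normalised function `h' = h * c`
  have hcF : algebraMap A₀ F c ≠ 0 := by
    rw [IsScalarTower.algebraMap_apply A₀ L₀ F, Ne, map_eq_zero, map_eq_zero_iff _ hinj]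
    exact hc0
  have hh' : h * algebraMap A₀ F c ≠ 0 := mul_ne_zero hh hcF
  have hcP : ∀ x : A₀, algebraMap A₀ F x ∈ s18tIntLoc A₀ t (C ϖ) (s18t_prime_C hϖ) :=
    fun x => s18tInt_le_intLoc hϖ t (s18tc_algebraMap_mem_int t x)
  have hh1'' : S18DvdGauss hϖ t (h * algebraMap A₀ F c - 1) := by
    have h1 : h * algebraMap A₀ F c - 1 =
        (h - 1) * algebraMap A₀ F c + algebraMap A₀ F ϖ * algebraMap A₀ F (-(c * (ap * b))) := by
      have h2 : c - 1 = ϖ * (-(c * (ap * b))) := by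
        have : c * (1 + ϖ * (ap * b)) = 1 := by rw [← ha]; exact hca
        linear_combination this
      have h3 : algebraMap A₀ F c - 1 =
          algebraMap A₀ F ϖ * algebraMap A₀ F (-(c * (ap * b))) := by
        rw [← map_mul, ← h2, map_sub, map_one]
      rw [← h3]
      ring
    rw [h1]
    exact S18DvdGauss.add hϖ (S18DvdGauss.mul_mem hϖ hh1 (hcP c)) ⟨_, hcP _, rfl⟩
  -- the root in `L₀((𝐪))`
  obtain ⟨y, hydef⟩ : ∃ y : LaurentSeries L₀,
      y = HahnSeries.ofPowerSeries ℤ L₀ y₁ * ((r : F) : LaurentSeries L₀) := ⟨_, rfl⟩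
  have hy : y ^ n = ((h * algebraMap A₀ F c : F) : LaurentSeries L₀) := by
    rw [hydef, mul_pow, ← map_pow, hy₁, map_mul, hω, PowerSeries.coe_C]
    have h1 : (HahnSeries.C (algebraMap A₀ L₀ c) : LaurentSeries L₀) =
        ((algebraMap A₀ F c : F) : LaurentSeries L₀) := by
      rw [s18v_coe_algebraMap, HahnSeries.algebraMap_apply']
      simp
    rw [h1]
    have h2 : h * algebraMap A₀ F c = algebraMap A₀ F c * (h / r ^ n) * r ^ n := by
      rw [mul_assoc, div_mul_cancel₀ _ (pow_ne_zero n hr0), mul_comm]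
    rw [h2]
    push_cast
    ring
  have hy0 : y ≠ 0 := by
    rintro rfl
    rw [zero_pow hn0] at hy
    exact hh' (Subtype.ext hy.symm)
  -- `st_core` with `F'' = F(y) ⊂ L₀((𝐪))`
  set F'' : IntermediateField L₀ (LaurentSeries L₀) := F ⊔ L₀⟮y⟯ with hF''def
  have hle : F ≤ F'' := le_sup_left
  have hyF'' : y ∈ F'' :=
    (le_sup_right : L₀⟮y⟯ ≤ F ⊔ L₀⟮y⟯) (IntermediateField.mem_adjoin_simple_self L₀ y)
  letI : Algebra ↥F ↥F'' := (IntermediateField.inclusion hle).toRingHom.toAlgebra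
  haveI : IsScalarTower A₀ ↥F ↥F'' := IsScalarTower.of_algebraMap_eq (fun _ => rfl)
  haveI : IsScalarTower L₀ ↥F ↥F'' := IsScalarTower.of_algebraMap_eq (fun _ => rfl)
  have hy'' : (⟨y, hyF''⟩ : ↥F'') ^ n = algebraMap ↥F ↥F'' (h * algebraMap A₀ F c) :=
    Subtype.ext hy
  have hgen : (↥F)⟮(⟨y, hyF''⟩ : ↥F'')⟯ = ⊤ := s18cn_adjoin_eq_top F F'' hle y hyF'' le_rfl
  obtain ⟨y₀, hy₀⟩ := st_core (↥F'') hϖ t ht n hn ζ hζ (h * algebraMap A₀ F c) hh' hh1''
    (fun 𝔫 h𝔫 hϖ𝔫 => sqca_divAt_mul_const hϖ t n h c hc0 hh 𝔫 (h0 𝔫 h𝔫 hϖ𝔫))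
    (fun 𝔫 h𝔫 hϖ𝔫 ht𝔫 => sqca_divAt_mul_const hϖ t⁻¹ n h c hc0 hh 𝔫 (hinf 𝔫 h𝔫 hϖ𝔫 ht𝔫))
    (⟨y, hyF''⟩ : ↥F'') hy'' hgen (s18cn_constants F'')
  refine ⟨a, y₀, hau, ?_⟩
  rw [hy₀, mul_comm h, ← mul_assoc, ← map_mul, hc, map_one, one_mul]

end Apply

end Fermat.Agent.SQ
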