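import Mathlib
import Fermat.Agent.SQ.Core.Apply
import Fermat.Agent.SQ.NewInst
import Fermat.Agent.SQ.NewGlue
import Fermat.Agent.S24.PlaceOrd

/-!
# Program Q (S36), package CORE, leaf ABS (prefix `sqco_`) : the abstract core of Program Q

Setting: `A₀` a DVR of characteristic `0` (NOT Henselian), `L₀ = Frac A₀`, `F ⊂ L₀((𝐪))` a function
field with a chart coordinate `t` having a pole at `𝐪 = 0`, `F₁` a second function field with the two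
degeneracy maps `α φ : F₁ → F` and the norms `Nα Nφ : F → F₁`.

`sqco_core` : if `f ∈ Fˣ` has an `n`-divisible divisor and both norms of `f` are
`(normalised constant) × (n-th power)` (`SqwNewN`), then

  `f ^ ((q + 1) (q - 1) (q² - 1)) = (constant) · Yⁿ`.

Chain: `sq_new_normalise_three` (helper23: `f^{(q+1)(q-1)} = ϖ^a Hⁿ f₄`, `f₄ ≡ 1` on `V₁, V₂, V₃`,
norms of `f₄` = one-unit constant × `n`-th power) ⟹ `sq_core_divAt` (helper27: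
`f₄^{q²-1} = Hⁿ f₇`, `f₇ ≡ 1 mod ϖ P_(ϖ)` with the local datum `StDivAt` at every closed point of
both charts) ⟹ `sqca_apply` (`f₇ = a y₀ⁿ`, `a ∈ A₀ˣ`).
-/

set_option autoImplicit false
set_option linter.unusedSectionVars false
set_option linter.unusedVariables false
set_option synthInstance.maxHeartbeats 400000
set_option linter.style.haveILetI false

noncomputable section

namespace Fermat.Agent.SQ

open ModularCurve AlgebraicCurve IntermediateField Polynomial Fermat.Agent.S18 Fermat.Agent.SS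
  Fermat.Agent.ST Fermat.Agent.S24

universe u

section Abs

variable {A₀ : Type*} [CommRing A₀] [IsDomain A₀] [IsDiscreteValuationRing A₀] [CharZero A₀]
variable {L₀ : Type u} [Field L₀] [Algebra A₀ L₀] [IsFractionRing A₀ L₀]
variable {ϖ : A₀}

/-- a one-unit of the valuation ring `AL = image of A₀` is the image of an element of `1 + ϖ A₀`. -/
theorem sqco_oneUnit_descend (hϖ : Irreducible ϖ) (AL : ValuationSubring L₀)
    (hAL : ∀ x : L₀, x ∈ AL ↔ ∃ a : A₀, algebraMap A₀ L₀ a = x) (u : L₀)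
    (hu : u - 1 ∈ AL.nonunits) : ∃ a : A₀, algebraMap A₀ L₀ a = u ∧ ϖ ∣ a - 1 := by
  have hu1 : u - 1 ∈ AL := ValuationSubring.nonunits_le hu
  obtain ⟨b, hb⟩ := (hAL _).mp hu1
  refine ⟨b + 1, by rw [map_add, map_one, hb]; ring, ?_⟩
  rw [add_sub_cancel_right]
  have hnu : ¬ IsUnit b := by
    intro hbu
    obtain ⟨c, hc⟩ := hbu.exists_right_inv
    have h1 : (u - 1) * algebraMap A₀ L₀ c = 1 := by
      rw [← hb, ← map_mul, hc, map_one]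
    have hcm : algebraMap A₀ L₀ c ∈ AL := (hAL _).mpr ⟨c, rfl⟩
    rw [ValuationSubring.mem_nonunits_iff] at hu
    have h2 := congrArg AL.valuation h1
    rw [map_mul, map_one] at h2
    have h3 : AL.valuation (algebraMap A₀ L₀ c) ≤ 1 := (AL.valuation_le_one_iff _).mpr hcm
    have h4 : AL.valuation (u - 1) * AL.valuation (algebraMap A₀ L₀ c) < 1 := by
      calc AL.valuation (u - 1) * AL.valuation (algebraMap A₀ L₀ c)
          ≤ AL.valuation (u - 1) * 1 := by gcongr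
        _ < 1 := by rw [mul_one]; exact hu
    rw [h2] at h4
    exact lt_irrefl _ h4
  have hmem : b ∈ IsLocalRing.maximalIdeal A₀ := hnu
  rw [hϖ.maximalIdeal_eq, Ideal.mem_span_singleton] at hmem
  exact hmem

/-- the order of a constant at a place vanishes -/
theorem sqco_ord_const {F : Type*} [Field F] [Algebra A₀ F] [Algebra L₀ F] [IsScalarTower A₀ L₀ F]
    (R : Place L₀ F) (a : A₀) : R.ord (algebraMap A₀ F a) = 0 := by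
  rw [IsScalarTower.algebraMap_apply A₀ L₀ F]
  exact PlaceOrd.ord_algebraMap R _

/-- `n ∣ ord f` is inherited by the normalised function `f₄`. -/
theorem sqco_dvd_ord {K F : Type*} [Field K] [Field F] [Algebra K F]
    (R : Place K F) (n : ℕ) (c : ℕ) (a : ℤ) (p f Hh f₄ : F) (hp0 : p ≠ 0) (hp : R.ord p = 0)
    (hHh : Hh ≠ 0) (hf₄ : f₄ ≠ 0) (h : f ^ c = p ^ a * Hh ^ n * f₄) (hd : (n : ℤ) ∣ R.ord f) :
    (n : ℤ) ∣ R.ord f₄ := by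
  have h1 := congrArg R.ord h
  rw [← zpow_natCast, R.ord_zpow, R.ord_mul (mul_ne_zero (zpow_ne_zero _ hp0) (pow_ne_zero _ hHh)) hf₄,
    R.ord_mul (zpow_ne_zero _ hp0) (pow_ne_zero _ hHh), R.ord_zpow, hp, mul_zero, zero_add,
    ← zpow_natCast, R.ord_zpow] at h1
  have h2 : R.ord f₄ = (c : ℤ) * R.ord f - (n : ℤ) * R.ord Hh := by linarith
  rw [h2]
  exact dvd_sub (Dvd.dvd.mul_left hd _) (dvd_mul_right _ _)

variable {F₁ : Type*} [Field F₁] [Algebra A₀ F₁] [Algebra L₀ F₁] [IsScalarTower A₀ L₀ F₁]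

/-- **THE ABSTRACT CORE OF PROGRAM Q.** -/
theorem sqco_core (hϖ : Irreducible ϖ) (F : IntermediateField L₀ (LaurentSeries L₀)) (t : F)
    (ht : Transcendental L₀ t) [FiniteDimensional L₀⟮t⟯ F]
    (hpole : ((t : F) : LaurentSeries L₀).order < 0)
    {α φ : F₁ →+* F} {Nα Nφ : F →* F₁} {AL : ValuationSubring L₀}
    {W₁ W₂ : ValuationSubring F₁} {V₁ V₂ V₃ : ValuationSubring F}
    {vL : L₀ → ℤ} {w₁ w₂ : F₁ → ℤ} {o₁ o₂ o₃ : F → ℤ} {q : ℕ} {e₂ : ℕ} {π₂ : F}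
    (h3 : SqvThree hϖ t e₂ π₂ V₁ V₂ V₃)
    (H : SqNormData (algebraMap L₀ F₁) α φ Nα Nφ AL W₁ W₂ V₁ V₂ V₃ vL w₁ w₂ o₁ o₂ o₃
      (algebraMap A₀ L₀ ϖ) q)
    (hAL : ∀ x : L₀, x ∈ AL ↔ ∃ a : A₀, algebraMap A₀ L₀ a = x)
    (hαL : ∀ c : L₀, α (algebraMap L₀ F₁ c) = algebraMap L₀ F c)
    (ho₂ : o₂ π₂ = 1) (hq : 0 < q)
    (n : ℕ) (hn0 : 0 < n) (hn : IsUnit (n : A₀)) (hqn : Nat.Coprime q n)
    (ζ : A₀) (hζ : IsPrimitiveRoot ζ n)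
    (h0 : ∀ 𝔫 : Ideal ↥(s18tInt A₀ t), 𝔫.IsMaximal → sskPi ϖ t ∈ 𝔫 →
      SqSimpleAt t V₁ V₂ V₃ 𝔫 ∨ SqTripleAt α φ Nα Nφ t V₁ V₂ V₃ 𝔫)
    (hinf : ∀ 𝔫 : Ideal ↥(s18tInt A₀ t⁻¹), 𝔫.IsMaximal → sskPi ϖ t⁻¹ ∈ 𝔫 →
      ssglTinv (A := A₀) t ∈ 𝔫 → SqSimpleAt t⁻¹ V₁ V₂ V₃ 𝔫)
    (f : F) (hf : f ≠ 0) (hdvd : ∀ R : Place L₀ F, (n : ℤ) ∣ R.ord f)
    (hnew : SqwNewN (algebraMap L₀ F₁) AL (algebraMap A₀ L₀ ϖ) Nα Nφ n f) :
    ∃ (a : L₀) (Y : F), a ≠ 0 ∧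
      f ^ ((q + 1) * (q - 1) * (q ^ 2 - 1)) = algebraMap L₀ F a * Y ^ n := by
  have hinj : Function.Injective (algebraMap A₀ L₀) := IsFractionRing.injective A₀ L₀
  have hϖL : algebraMap A₀ L₀ ϖ ≠ 0 := by
    rw [Ne, map_eq_zero_iff _ hinj]
    exact hϖ.ne_zero
  have hϖF : algebraMap A₀ F ϖ ≠ 0 := by
    rw [IsScalarTower.algebraMap_apply A₀ L₀ F, Ne, map_eq_zero]
    exact hϖL
  -- step 1 : normalise
  obtain ⟨a₁, Hh₁, f₄, hHh₁, hf₄, hpow₁, -, hc₁, hc₂, hc₃, ⟨uα, gα, huα, -, -, -, hNα⟩,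
    ⟨uφ, gφ, huφ, -, -, -, hNφ⟩⟩ :=
    sq_new_normalise_three H hαL h3 ht ho₂ hn0 hn hqn hf hnew
  obtain ⟨bα, hbα, hbα1⟩ := sqco_oneUnit_descend hϖ AL hAL uα huα
  obtain ⟨bφ, hbφ, hbφ1⟩ := sqco_oneUnit_descend hϖ AL hAL uφ huφ
  have hNα' : Nα f₄ = algebraMap A₀ F₁ bα * gα ^ n := by
    rw [hNα, IsScalarTower.algebraMap_apply A₀ L₀ F₁, hbα]
  have hNφ' : Nφ f₄ = algebraMap A₀ F₁ bφ * gφ ^ n := by
    rw [hNφ, IsScalarTower.algebraMap_apply A₀ L₀ F₁, hbφ]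
  -- the divisor of `f₄`
  have hord₄ : ∀ R : Place L₀ F, (n : ℤ) ∣ R.ord f₄ := fun R =>
    sqco_dvd_ord R n _ a₁ _ f Hh₁ f₄ hϖF (sqco_ord_const R ϖ) hHh₁ hf₄ hpow₁ (hdvd R)
  -- step 2 : glue
  obtain ⟨f₇, Hh₂, hf₇, hHh₂, hpow₂, hD₇, -, hdiv0, hdivInf⟩ :=
    sq_core_divAt hϖ t ht h3 H hq (fun a => (hAL _).mpr ⟨a, rfl⟩) hαL n hn ζ hζ h0 hinf
      f₄ hf₄ hc₁.2.2 hc₂.2.2 hc₃.2.2 hord₄ bα hbα1 gα hNα' bφ hbφ1 gφ hNφ'
  -- step 3 : the last step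
  obtain ⟨a, y₀, ha, hy₀⟩ := sqca_apply hϖ F t ht hpole n hn ζ hζ f₇ hf₇ hD₇ hdiv0 hdivInf
  -- the chain
  refine ⟨algebraMap A₀ L₀ ϖ ^ (a₁ * ((q ^ 2 - 1 : ℕ) : ℤ)) * algebraMap A₀ L₀ a,
    Hh₁ ^ (q ^ 2 - 1) * Hh₂ * y₀, ?_, ?_⟩
  · refine mul_ne_zero (zpow_ne_zero _ hϖL) ?_
    rw [Ne, map_eq_zero_iff _ hinj]
    exact ha.ne_zero
  · rw [pow_mul, hpow₁, mul_pow, mul_pow, hpow₂, hy₀, map_mul, map_zpow₀,
      ← IsScalarTower.algebraMap_apply A₀ L₀ F, ← IsScalarTower.algebraMap_apply A₀ L₀ F,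
      zpow_mul, zpow_natCast]
    ring

end Abs

end Fermat.Agent.SQ
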