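import Mathlib
import Fermat.Agent.SQ.NewGlue
import Fermat.Agent.SS.Val.ModFrob2
import Fermat.Agent.SS.Geo.Fixed
import Fermat.Agent.S18.Core.Spec

/-!
# Program Q (S36), package CORE : the concrete side `SqGeo` (prefix `sqco`, `SqGeo`)

`F = F_E(M' q)`, `F₁ = F_E(M')` (`q ‖ M'`, so the level of `F` is `q² · M''`), `α = ssvmdIncl E M' q`,
`φ = ssvmfPhi E M' q`, `Nα, Nφ` the field norms along `α`, `φ` (`sqcoNorm`), `A₀ = 𝔸 ∩ E` a DVR in
which `q` IS A UNIFORMISER (`E` = an inertia field `ssgfE0 𝔸 E'`), `t ∈ F` a chart coordinate with a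
pole at the cusp `∞`.

`SqGeoCore` = what VAL² (`SqvThree`), NORM (`SqNormData`), GERM² (`SqSimpleAt ∨ SqTripleAt` at every
closed point of the chart `t`, `SqSimpleAt` at the points at infinity of the chart `t⁻¹`) deliver;
`SqGeo M' q 𝔸 E t` = `transc` + `fin` + `pole` + `SqGeoCore` for suitable valuation rings;
`SqGeoAt M' q 𝔸` = `SqGeo` over the inertia field of every big enough finite normal `E`.
Consumed by `sq_kill_of_geo` (`Core/Main.lean`) through the abstract core `sqco_core` (`Core/Abs.lean`).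
-/

set_option autoImplicit false
set_option linter.unusedSectionVars false
set_option linter.unusedVariables false
set_option synthInstance.maxHeartbeats 400000

noncomputable section

namespace Fermat.Agent.SQ

open ModularCurve AlgebraicCurve IntermediateField Polynomial Fermat.Agent.S18 Fermat.Agent.SS

local notation "Qb" => AlgebraicClosure ℚ

/-- the norm of the field extension `α : F₁ → F` (`= Algebra.norm` for the algebra structure
`α.toAlgebra`). -/
def sqcoNorm {F₁ F : Type*} [Field F₁] [Field F] (α : F₁ →+* F) : F →* F₁ :=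
  @Algebra.norm F₁ F _ _ α.toAlgebra

theorem sqcoNorm_apply {F₁ F : Type*} [Field F₁] [Field F] (α : F₁ →+* F) (x : F) :
    sqcoNorm α x = @Algebra.norm F₁ F _ _ α.toAlgebra x := rfl

section Geo

variable (M' q : ℕ) [NeZero M'] [NeZero q] (A : ValuationSubring Qb)
  (E : IntermediateField ℚ Qb) [IsDiscreteValuationRing ↥(s18dVal A E)] [CharZero ↥(s18dVal A E)]

/-- THE VALUATION-THEORETIC AND LOCAL DATA of Program Q for the chart coordinate `t`, the
uniformiser `ϖ = q` and the valuation rings `V₁ V₂ V₃` of `F_E(M' q)`, `W₁ W₂` of `F_E(M')`. -/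
structure SqGeoCore (t : modularFunctionFieldFullC E (M' * q))
    (hϖ : Irreducible ((q : ℕ) : ↥(s18dVal A E))) (e₂ : ℕ)
    (π₂ : modularFunctionFieldFullC E (M' * q))
    (V₁ V₂ V₃ : ValuationSubring (modularFunctionFieldFullC E (M' * q)))
    (W₁ W₂ : ValuationSubring (modularFunctionFieldFullC E M'))
    (vL : E → ℤ) (w₁ w₂ : modularFunctionFieldFullC E M' → ℤ)
    (o₁ o₂ o₃ : modularFunctionFieldFullC E (M' * q) → ℤ) : Prop where
  /-- (VAL²) the Gauss valuation of `E(t)` has exactly the three extensions `V₁, V₂, V₃` -/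
  three : SqvThree hϖ t e₂ π₂ V₁ V₂ V₃
  /-- `o₂` is normalised -/
  ord₂ : o₂ π₂ = 1
  /-- (NORM) the behaviour of the two norms -/
  norm : SqNormData (algebraMap E (modularFunctionFieldFullC E M'))
    (ssvmdIncl E M' q).toRingHom (ssvmfPhi E M' q)
    (sqcoNorm (ssvmdIncl E M' q).toRingHom) (sqcoNorm (ssvmfPhi E M' q))
    (s18dVal A E) W₁ W₂ V₁ V₂ V₃ vL w₁ w₂ o₁ o₂ o₃
    (algebraMap ↥(s18dVal A E) E ((q : ℕ) : ↥(s18dVal A E))) q
  /-- (GERM²) the closed points of the chart `t` -/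
  loc0 : ∀ 𝔫 : Ideal ↥(s18tInt ↥(s18dVal A E) t), 𝔫.IsMaximal →
    sskPi ((q : ℕ) : ↥(s18dVal A E)) t ∈ 𝔫 →
      SqSimpleAt t V₁ V₂ V₃ 𝔫 ∨
      SqTripleAt (ssvmdIncl E M' q).toRingHom (ssvmfPhi E M' q)
        (sqcoNorm (ssvmdIncl E M' q).toRingHom) (sqcoNorm (ssvmfPhi E M' q)) t V₁ V₂ V₃ 𝔫
  /-- (GERM²) the closed points at infinity of the chart `t⁻¹` -/
  locInf : ∀ 𝔫 : Ideal ↥(s18tInt ↥(s18dVal A E) t⁻¹), 𝔫.IsMaximal →
    sskPi ((q : ℕ) : ↥(s18dVal A E)) t⁻¹ ∈ 𝔫 → ssglTinv (A := ↥(s18dVal A E)) t ∈ 𝔫 →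
      SqSimpleAt t⁻¹ V₁ V₂ V₃ 𝔫

/-- THE CONCRETE SIDE of Program Q for the chart coordinate `t ∈ F_E(M' q)`. -/
structure SqGeo (t : modularFunctionFieldFullC E (M' * q)) : Prop where
  /-- `t` is transcendental over `E` -/
  transc : Transcendental E t
  /-- `F_E(M' q)` is finite over `E(t)` -/
  fin : FiniteDimensional E⟮t⟯ (modularFunctionFieldFullC E (M' * q))
  /-- `t` has a pole at the cusp `∞` -/
  pole : ((t : modularFunctionFieldFullC E (M' * q)) : LaurentSeries E).order < 0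
  /-- VAL² + NORM + GERM², when `q` is a uniformiser of `𝔸 ∩ E` -/
  core : ∀ hϖ : Irreducible ((q : ℕ) : ↥(s18dVal A E)),
    ∃ (e₂ : ℕ) (π₂ : modularFunctionFieldFullC E (M' * q))
      (V₁ V₂ V₃ : ValuationSubring (modularFunctionFieldFullC E (M' * q)))
      (W₁ W₂ : ValuationSubring (modularFunctionFieldFullC E M'))
      (vL : E → ℤ) (w₁ w₂ : modularFunctionFieldFullC E M' → ℤ)
      (o₁ o₂ o₃ : modularFunctionFieldFullC E (M' * q) → ℤ),
      SqGeoCore M' q A E t hϖ e₂ π₂ V₁ V₂ V₃ W₁ W₂ vL w₁ w₂ o₁ o₂ o₃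

end Geo

/-- the concrete side over the inertia field of every big enough finite normal number field. -/
def SqGeoAt (M' q : ℕ) [NeZero M'] [NeZero q] (A : ValuationSubring Qb) : Prop :=
  ∃ (E₁ : IntermediateField ℚ Qb) (_ : FiniteDimensional ℚ E₁),
    ∀ (E : IntermediateField ℚ Qb) [FiniteDimensional ℚ E] [Normal ℚ E]
      [IsDiscreteValuationRing ↥(s18dVal A (ssgfE0 A E))] [CharZero ↥(s18dVal A (ssgfE0 A E))],
      E₁ ≤ E → ∃ t : modularFunctionFieldFullC (ssgfE0 A E) (M' * q),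
        SqGeo M' q A (ssgfE0 A E) t

end Fermat.Agent.SQ
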