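import Mathlib
import Fermat.Agent.SQ.Core.Geo
import Fermat.Agent.SQ.Core.Abs
import Fermat.Agent.SQ.Descend.Class
import Fermat.Agent.SQ.Descend.New
import Fermat.Agent.SQ.Descend.Inertia
import Fermat.Agent.SS.Top.Core
import Fermat.Agent.S35.AsmDefs

/-!
# Program Q (S36), package CORE : `sq_kill_of_geo`

The concrete side `SqGeoAt M' q 𝔸` kills the `I_𝔸`-fixed prime-to-`q` torsion of
`ker α_* ⊓ ker φ_* ⊂ J₀(M' q)` with the constant `(q + 1)(q - 1)(q² - 1)`.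

Inputs : helper12's `sqd_descend_new` (`SQ/Descend/New.lean` : the normalised new Kummer datum over the
inertia fields) and `sqdi_irreducible` (`SQ/Descend/Inertia.lean` : `q` is a uniformiser of `𝔸 ∩ E₀`,
`E₀` an inertia field); the abstract core `sqco_core` (`Core/Abs.lean`); `sqd_class_kill`.
-/

set_option autoImplicit false
set_option linter.unusedSectionVars false
set_option linter.unusedVariables false
set_option linter.style.haveILetI false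
set_option synthInstance.maxHeartbeats 400000

noncomputable section

namespace Fermat.Agent.SQ

open ModularCurve AlgebraicCurve IntermediateField Polynomial Fermat.Agent.S18 Fermat.Agent.SS
  Fermat.Agent.S24 Fermat.Agent.G

local notation "Qb" => AlgebraicClosure ℚ

/-- `n` prime to `q` is a unit of `𝔸 ∩ E` when `𝔸` lies over `q`. -/
theorem sqco_isUnit_natCast (A : ValuationSubring Qb) (E : IntermediateField ℚ Qb) {n q : ℕ}
    (hq : q.Prime) (hqn : ¬ q ∣ n) (hA : A.LiesOverPrime q) :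
    IsUnit ((n : ℕ) : ↥(s18dVal A E)) := by
  haveI : Fact q.Prime := ⟨hq⟩
  have hℓmem := s18d_natCast_mem (ℓ := q) A E hA
  have hcop : Nat.Coprime n q := ((Nat.Prime.coprime_iff_not_dvd hq).mpr hqn).symm
  obtain ⟨a, b, hab⟩ : ∃ a b : ℤ, a * n + b * q = 1 := by
    have := Int.gcd_eq_gcd_ab n q
    rw [Int.gcd_natCast_natCast, hcop.gcd_eq_one] at this
    exact ⟨Int.gcdA n q, Int.gcdB n q, by push_cast at this; linarith⟩
  have h1 : ((a : ↥(s18dVal A E))) * (n : ↥(s18dVal A E)) =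
      1 - (b : ↥(s18dVal A E)) * (q : ↥(s18dVal A E)) := by
    have := congrArg (Int.cast : ℤ → ↥(s18dVal A E)) hab
    push_cast at this
    linear_combination this
  have h2 : IsUnit (1 - (b : ↥(s18dVal A E)) * (q : ↥(s18dVal A E))) := by
    by_contra hnu
    have h3 : (1 - (b : ↥(s18dVal A E)) * (q : ↥(s18dVal A E))) ∈
        IsLocalRing.maximalIdeal ↥(s18dVal A E) := hnu
    have h4 : (b : ↥(s18dVal A E)) * (q : ↥(s18dVal A E)) ∈
        IsLocalRing.maximalIdeal ↥(s18dVal A E) := Ideal.mul_mem_left _ _ hℓmem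
    have h5 := Ideal.add_mem _ h3 h4
    rw [sub_add_cancel] at h5
    exact (Ideal.ne_top_iff_one _).mp (IsLocalRing.maximalIdeal.isMaximal _).ne_top h5
  rw [← h1] at h2
  exact isUnit_of_mul_isUnit_right h2

/-- a primitive `m`-th root of unity of `E` (`q ∤ m`) lies in `𝔸 ∩ E₀`, `E₀` the inertia field. -/
theorem sqco_exists_primitiveRoot (A : ValuationSubring Qb) (E : IntermediateField ℚ Qb) {q : ℕ}
    (hq : q.Prime) (hA : A.LiesOverPrime q) {m : ℕ} (hm : m ≠ 0) (hqm : ¬ q ∣ m)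
    (hζ : ∃ ζ : Qb, ζ ∈ E ∧ IsPrimitiveRoot ζ m) :
    ∃ ζ₀ : ↥(s18dVal A (ssgfE0 A E)), IsPrimitiveRoot ζ₀ m := by
  obtain ⟨ζt, hζtE, hζt⟩ := hζ
  have hζE : IsPrimitiveRoot (⟨ζt, hζtE⟩ : E) m :=
    IsPrimitiveRoot.of_map_of_injective (f := algebraMap E Qb) hζt (algebraMap E Qb).injective
  obtain ⟨ζ₀, hζ₀, -⟩ := ssgf_primitiveRoot A E hq hA hqm ⟨ζt, hζtE⟩ hζE
  have hζ₀A : ζ₀ ∈ s18dVal A (ssgfE0 A E) :=
    sstc_mem_of_pow_eq_one (s18dVal A (ssgfE0 A E)) hm hζ₀.pow_eq_one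
  exact ⟨⟨ζ₀, hζ₀A⟩, IsPrimitiveRoot.of_map_of_injective
    (f := (s18dVal A (ssgfE0 A E)).subtype) hζ₀ Subtype.val_injective⟩

/-- **THE CONCRETE SIDE KILLS** : `SqGeoAt M' q 𝔸` ⟹ `(q + 1)(q - 1)(q² - 1)` kills the `I_𝔸`-fixed `n`-torsion (`q ∤ n`) of
`ker α_* ⊓ ker φ_*`. -/
theorem sq_kill_of_geo (M' q : ℕ) [NeZero M'] [NeZero q] (hq : q.Prime)
    (A : ValuationSubring Qb) (hA : A.LiesOverPrime q)
    (hgeo : SqGeoAt M' q A)
    (n : ℕ) (hn : n ≠ 0) (hqn : ¬ q ∣ n) (x : JZero (M' * q)) (hx : n • x = 0)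
    (hfix : ∀ σ ∈ A.inertiaSubgroupIn ℚ, σ • x = x)
    (hα : g37pPush M' q x = 0) (hβ : s35asmPushBeta M' q x = 0) :
    ((q + 1) * (q - 1) * (q ^ 2 - 1)) • x = 0 := by
  have hnpos : 0 < n := Nat.pos_of_ne_zero hn
  obtain ⟨E₁, hE₁, hgeoE⟩ := hgeo
  obtain ⟨E₂, hE₂, hdescE⟩ := sqd_descend_new A hq hA M' n hn hqn x hx hfix hα hβ
  haveI := hE₁
  haveI := hE₂
  obtain ⟨ζt, hζt⟩ := s18dd_exists_primitiveRoot n hnpos
  haveI halg : Algebra.IsAlgebraic ℚ Qb := AlgebraicClosure.isAlgebraic ℚ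
  haveI hcl : IsAlgClosure ℚ Qb := AlgebraicClosure.instIsAlgClosure ℚ
  haveI hnormQb : Normal ℚ Qb := IsAlgClosure.normal ℚ Qb
  -- the number field
  obtain ⟨E₃, hE₃⟩ : ∃ E₃ : IntermediateField ℚ Qb, E₃ = E₁ ⊔ E₂ ⊔ ℚ⟮ζt⟯ := ⟨_, rfl⟩
  haveI hfdζ : FiniteDimensional ℚ ℚ⟮ζt⟯ :=
    IntermediateField.adjoin.finiteDimensional (Algebra.IsAlgebraic.isAlgebraic ζt).isIntegral
  haveI hfd₃ : FiniteDimensional ℚ E₃ := by
    rw [hE₃]
    haveI : FiniteDimensional ℚ (E₁ ⊔ E₂ : IntermediateField ℚ Qb) :=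
      IntermediateField.finiteDimensional_sup _ _
    exact IntermediateField.finiteDimensional_sup _ _
  obtain ⟨E, hEdef⟩ : ∃ E : IntermediateField ℚ Qb, E = IntermediateField.normalClosure ℚ E₃ Qb :=
    ⟨_, rfl⟩
  have hE₃E : E₃ ≤ E := hEdef ▸ IntermediateField.le_normalClosure E₃
  haveI hEfd : FiniteDimensional ℚ E := by
    rw [hEdef]; exact normalClosure.is_finiteDimensional ℚ E₃ Qb
  haveI hEn : Normal ℚ E := by
    rw [hEdef]; exact normalClosure.normal ℚ E₃ Qb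
  have hE₁E : E₁ ≤ E := le_trans (hE₃ ▸ (le_sup_left.trans le_sup_left)) hE₃E
  have hE₂E : E₂ ≤ E := le_trans (hE₃ ▸ (le_sup_right.trans le_sup_left)) hE₃E
  have hζtE : ζt ∈ E := hE₃E (hE₃ ▸ (le_sup_right (a := E₁ ⊔ E₂) (b := ℚ⟮ζt⟯))
    (IntermediateField.mem_adjoin_simple_self ℚ ζt))
  -- the inertia field
  haveI : Fact q.Prime := ⟨hq⟩
  haveI hdvr : IsDiscreteValuationRing ↥(s18dVal A (ssgfE0 A E)) := s18d_isDVR A (ssgfE0 A E) hA
  haveI hcz : CharZero ↥(s18dVal A (ssgfE0 A E)) := ⟨fun a b h => by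
    have h1 := congrArg (fun x : ↥(s18dVal A (ssgfE0 A E)) => (x : ssgfE0 A E)) h
    simpa using h1⟩
  have hϖ : Irreducible ((q : ℕ) : ↥(s18dVal A (ssgfE0 A E))) := sqdi_irreducible A hq hA E
  -- the root of unity in `𝔸 ∩ E₀`
  obtain ⟨ζA, hζA⟩ := sqco_exists_primitiveRoot A E hq hA hn hqn ⟨ζt, hζtE, hζt⟩
  have hnu : IsUnit ((n : ℕ) : ↥(s18dVal A (ssgfE0 A E))) :=
    sqco_isUnit_natCast A (ssgfE0 A E) hq hqn hA
  -- the two inputs
  obtain ⟨t, geo⟩ := hgeoE E hE₁E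
  haveI := geo.fin
  obtain ⟨e₂, π₂, V₁, V₂, V₃, W₁, W₂, vL, w₁, w₂, o₁, o₂, o₃, core⟩ := geo.core hϖ
  obtain ⟨D, f, gα, gφ, mα, mφ, hxD, hf0, hgα0, hgφ0, hordup, hdvd, -, hNα₀, hNφ₀⟩ := hdescE E hE₂E
  have hNα : sqcoNorm (ssvmdIncl (ssgfE0 A E) M' q).toRingHom f =
      ((q : ℕ) : modularFunctionFieldFullC (ssgfE0 A E) M') ^ mα * gα ^ n := hNα₀
  have hNφ : sqcoNorm (ssvmfPhi (ssgfE0 A E) M' q) f =
      ((q : ℕ) : modularFunctionFieldFullC (ssgfE0 A E) M') ^ mφ * gφ ^ n := hNφ₀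
  -- the normalised new-Kummer datum
  have hcop : Nat.Coprime q n := (Nat.Prime.coprime_iff_not_dvd hq).mpr hqn
  have hϖL0 : algebraMap ↥(s18dVal A (ssgfE0 A E)) (ssgfE0 A E)
      ((q : ℕ) : ↥(s18dVal A (ssgfE0 A E))) ≠ 0 := by
    rw [map_natCast]
    exact Nat.cast_ne_zero.mpr hq.ne_zero
  have hnew : SqwNewN (algebraMap (ssgfE0 A E) (modularFunctionFieldFullC (ssgfE0 A E) M'))
      (s18dVal A (ssgfE0 A E))
      (algebraMap ↥(s18dVal A (ssgfE0 A E)) (ssgfE0 A E) ((q : ℕ) : ↥(s18dVal A (ssgfE0 A E))))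
      (sqcoNorm (ssvmdIncl (ssgfE0 A E) M' q).toRingHom) (sqcoNorm (ssvmfPhi (ssgfE0 A E) M' q))
      n f := by
    refine ⟨⟨_, gα, SqwNC.unif_zpow hϖL0 mα, hgα0, ?_⟩, ⟨_, gφ, SqwNC.unif_zpow hϖL0 mφ, hgφ0, ?_⟩⟩
    · rw [hNα, map_zpow₀, map_natCast, map_natCast]
    · rw [hNφ, map_zpow₀, map_natCast, map_natCast]
  -- the abstract core
  obtain ⟨a, Y, ha0, hpow⟩ := sqco_core hϖ (modularFunctionFieldFullC (ssgfE0 A E) (M' * q)) t
    geo.transc geo.pole core.three core.norm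
    (fun x => ⟨fun hx => ⟨⟨x, hx⟩, rfl⟩, fun ⟨a, ha⟩ => ha ▸ a.2⟩)
    (fun c => (ssvmdIncl (ssgfE0 A E) M' q).commutes c) core.ord₂ hq.pos n hnpos hnu hcop
    ζA hζA core.loc0 core.locInf f hf0 hdvd hnew
  -- back to `ℚ̄`
  rw [hxD]
  have hup0 : ssdUp (ssgfE0 A E) (M' * q) f ≠ 0 := by
    rw [Ne, map_eq_zero]
    exact hf0
  have hac0 : algebraMap (ssgfE0 A E) Qb a ≠ 0 := by
    rw [Ne, map_eq_zero]
    exact ha0
  refine sqd_class_kill (M' * q) D n hn (ssdUp (ssgfE0 A E) (M' * q) f) hup0 hordup _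
    (ssdUp (ssgfE0 A E) (M' * q) Y) (algebraMap (ssgfE0 A E) Qb a) hac0 ?_
  rw [← map_pow, hpow, map_mul, map_pow, ssdUp_algebraMap]

end Fermat.Agent.SQ
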