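import Mathlib
import Fermat.Agent.SQ.Core.Main
import Fermat.Agent.S35.Asm
import Fermat.Agent.S36.AuxNew2
import Fermat.Agent.S54.ExistsFrobenius

/-!
# Program Q (S36), package CORE : the fixed-kill box `S36asmKillBox lam` from the concrete side

`sq_killBox_of_geo` : helper2's box `S36asmKillBox lam` (the geometric input (Q) of `s36asm_frozen`)
from

* `SqGeoAll` : the concrete side `SqGeoAt N q 𝔸` at every level `N` (`q ‖ N`) which carries an
  auxiliary prime `r ≡ 11 (mod 12)` (no elliptic points) and, for `q ∈ {2, 3}`, the prime `5 - q`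
  (the chart `h_a`);
* helper12's two exports `sqdi_irreducible`, `sqd_descend_new` (inside `sq_kill_of_geo`);
* helper29's auxiliary-level reductions `s36e_killBox_reduce`, `s36e_killBox_of_aux`.

The constant is `(r + 1) · (q + 1)(q - 1)(q² - 1)` (times `4` resp. `3` for `q = 2, 3`).
-/

set_option autoImplicit false
set_option linter.unusedSectionVars false
set_option linter.unusedVariables false
set_option linter.style.haveILetI false

noncomputable section

namespace Fermat.Agent.SQ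

open ModularCurve AlgebraicCurve Fermat.Agent.G Fermat.Agent.S18 Fermat.Agent.SS

local notation "Qb" => AlgebraicClosure ℚ

/-- THE GEOMETRIC INPUT OF PROGRAM Q : the concrete side at every level `N`, `q ‖ N`, carrying an
auxiliary prime `r ≡ 11 (mod 12)` and, for `q = 2` (resp. `3`), the prime `3` (resp. `2`). -/
def SqGeoAll : Prop :=
  ∀ (N q : ℕ) [NeZero N] [NeZero q], q.Prime → q ∣ N → ¬ q ^ 2 ∣ N →
    (q = 2 → 3 ∣ N) → (q = 3 → 2 ∣ N) →
    (∃ r : ℕ, r.Prime ∧ r ∣ N ∧ r ≠ q ∧ r % 12 = 11) →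
    ∀ A : ValuationSubring Qb, A.LiesOverPrime q → SqGeoAt N q A

/-- **THE FIXED-KILL BOX FROM THE CONCRETE SIDE.** -/
theorem sq_killBox_of_geo (lam : ℕ) (hlam : lam.Prime) (hgeo : SqGeoAll) :
    S36asmKillBox lam := by
  refine s36e_killBox_reduce lam ?_
  intro M' q _ _ hq hqM hq2M hqlam hs2 hs3
  -- the auxiliary prime
  obtain ⟨r, hrgt', hr, hmod⟩ :=
    Nat.forall_exists_prime_gt_and_modEq (M' * q + lam) (q := 12) (a := 11) (by norm_num)
      (by norm_num)
  have hmod' : r % 12 = 11 := hmod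
  have hrgt : M' * q < r := by omega
  have hpos : 0 < M' * q := Nat.pos_of_ne_zero (mul_ne_zero (NeZero.ne M') (NeZero.ne q))
  have hrM : ¬ r ∣ M' * q := Nat.not_dvd_of_pos_of_lt hpos hrgt
  have hrq : r ≠ q := fun h => hrM (h ▸ dvd_mul_left r M')
  haveI : NeZero r := ⟨hr.ne_zero⟩
  have hcop : (q ^ 2).Coprime r := Nat.Coprime.pow_left 2 ((Nat.coprime_primes hq hr).2 hrq.symm)
  have hq2Mr : ¬ q ^ 2 ∣ M' * r := fun h => hq2M (hcop.dvd_of_dvd_mul_right h)
  have hqMr : q ∣ M' * r := hqM.mul_right r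
  -- the place
  obtain ⟨A, hA⟩ := Fermat.Agent.S54.exists_valuationSubring_liesOverPrime (K := Qb) hq
  have hgeoAt : SqGeoAt (M' * r) q A :=
    hgeo (M' * r) q hq hqMr hq2Mr (fun h => (hs2 h).mul_right r) (fun h => (hs3 h).mul_right r)
      ⟨r, hr, dvd_mul_left r M', hrq, hmod'⟩ A hA
  have hqc : (q + 1) * (q - 1) * (q ^ 2 - 1) ≠ 0 := by
    have h2 : 2 ≤ q := hq.two_le
    have h3 : 1 < q ^ 2 := Nat.one_lt_pow (by norm_num) h2
    refine mul_ne_zero (mul_ne_zero (by omega) (by omega)) (by omega)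
  refine ⟨A, hA, (r + 1) * ((q + 1) * (q - 1) * (q ^ 2 - 1)),
    mul_ne_zero (Nat.succ_ne_zero r) hqc, ?_⟩
  refine fun x hx hxt hfix => s36e_killBox_of_aux hq hr hqM hrM lam A _ ?_ x hx hxt hfix
  intro y hy hyt hyfix
  obtain ⟨k, hk⟩ := hyt
  rw [mem_s35asmNewAt] at hy
  have hqn : ¬ q ∣ lam ^ k := fun h =>
    hqlam ((Nat.prime_dvd_prime_iff_eq hq hlam).mp (hq.dvd_of_dvd_pow h))
  exact sq_kill_of_geo (M' * r) q hq A hA hgeoAt (lam ^ k) (pow_ne_zero k hlam.ne_zero) hqn y hk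
    hyfix hy.1 hy.2

end Fermat.Agent.SQ
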